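/-
Project S35, cell [ABEL-FAM] (helper13): TOWER-INDEPENDENT FACTS ABOUT THE LEVELS `L1 ⊆ Q̄`.
Prefix `s35bf_`.

`A` a valuation ring of `Q̄`, `L1 ⊆ Q̄` a subfield, `O1 = A ∩ L1` (`A.comap (algebraMap L1 Q̄)`),
`k1`, `kb` the residue fields of `O1`, `A`.

* `s35bf_toA`, `s35bf_j`            : `O1 → A` (a local homomorphism) and `j : k1 → kb`;
* `s35bf_incl`, `s35bf_fbar`        : for `L1 ≤ L1'` the inclusion `L1 → L1'` maps `O1` into `O1'` and
                                      induces `f̄ : k1 → k1'`, with `j' ∘ f̄ = j` (`s35bf_j_comp`);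
* `s35bf_exists_intPoly`            : every residue class of a valuation ring of a field algebraic over
                                      `ℚ`, of residue characteristic `q`, is a root of an integral
                                      polynomial which does not vanish mod `q`;
* `s35bf_halg`                      : `kb` is algebraic over `k1` (monic polynomial form);
* `s35bf_perfectRing`               : `k1` is perfect.
-/
import Mathlib
import Fermat.Agent.JT3.Descent.ConstDVR

set_option autoImplicit false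
set_option linter.unusedSectionVars false
set_option linter.unusedVariables false
set_option linter.style.haveILetI false

noncomputable section

namespace Fermat.Agent.S35

open IsLocalRing Polynomial IntermediateField Fermat.Agent.JT3

local notation "Qb" => AlgebraicClosure ℚ

section Level

variable (A : ValuationSubring Qb) (L1 : IntermediateField ℚ Qb)

/-- `A ∩ L1 → A`. -/
def s35bf_toA : ↥(A.comap (algebraMap ↥L1 Qb)) →+* ↥A where
  toFun a := ⟨algebraMap ↥L1 Qb (a : ↥L1), a.2⟩
  map_one' := Subtype.ext (map_one (algebraMap ↥L1 Qb))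
  map_mul' a b := Subtype.ext (map_mul (algebraMap ↥L1 Qb) (a : ↥L1) (b : ↥L1))
  map_zero' := Subtype.ext (map_zero (algebraMap ↥L1 Qb))
  map_add' a b := Subtype.ext (map_add (algebraMap ↥L1 Qb) (a : ↥L1) (b : ↥L1))

@[simp] theorem s35bf_toA_coe (a : ↥(A.comap (algebraMap ↥L1 Qb))) :
    ((s35bf_toA A L1 a : ↥A) : Qb) = algebraMap ↥L1 Qb (a : ↥L1) := rfl

instance s35bf_toA_isLocalHom : IsLocalHom (s35bf_toA A L1) where
  map_nonunit a ha := by
    by_contra hna
    have h1 : a ∈ maximalIdeal ↥(A.comap (algebraMap ↥L1 Qb)) :=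
      (IsLocalRing.mem_maximalIdeal a).mpr hna
    rw [← ValuationSubring.coe_mem_nonunits_iff, dsc_mem_comap_nonunits_iff] at h1
    have h2 : ((s35bf_toA A L1 a : ↥A) : Qb) ∈ A.nonunits := h1
    rw [ValuationSubring.coe_mem_nonunits_iff] at h2
    exact (IsLocalRing.mem_maximalIdeal _).mp h2 ha

/-- `j : k1 → kb`. -/
def s35bf_j : ResidueField ↥(A.comap (algebraMap ↥L1 Qb)) →+* ResidueField ↥A :=
  ResidueField.map (s35bf_toA A L1)

theorem s35bf_j_residue (a : ↥(A.comap (algebraMap ↥L1 Qb))) :
    s35bf_j A L1 (residue _ a) = residue ↥A (s35bf_toA A L1 a) :=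
  ResidueField.map_residue _ a

variable {L1} {L1' : IntermediateField ℚ Qb} (h : L1 ≤ L1')

/-- the inclusion `L1 → L1'` as a ring homomorphism. -/
def s35bf_incl : ↥L1 →+* ↥L1' := (IntermediateField.inclusion h).toRingHom

@[simp] theorem s35bf_incl_coe (a : ↥L1) : ((s35bf_incl h a : ↥L1') : Qb) = (a : Qb) := rfl

theorem s35bf_incl_mem (a : ↥L1) (ha : a ∈ A.comap (algebraMap ↥L1 Qb)) :
    s35bf_incl h a ∈ A.comap (algebraMap ↥L1' Qb) := ha

/-- `O1 → O1'`. -/
def s35bf_restr : ↥(A.comap (algebraMap ↥L1 Qb)) →+* ↥(A.comap (algebraMap ↥L1' Qb)) where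
  toFun a := ⟨s35bf_incl h (a : ↥L1), s35bf_incl_mem A h _ a.2⟩
  map_one' := Subtype.ext (map_one (s35bf_incl h))
  map_mul' a b := Subtype.ext (map_mul (s35bf_incl h) (a : ↥L1) (b : ↥L1))
  map_zero' := Subtype.ext (map_zero (s35bf_incl h))
  map_add' a b := Subtype.ext (map_add (s35bf_incl h) (a : ↥L1) (b : ↥L1))

theorem s35bf_toA_restr (a : ↥(A.comap (algebraMap ↥L1 Qb))) :
    s35bf_toA A L1' (s35bf_restr A h a) = s35bf_toA A L1 a := rfl

instance s35bf_restr_isLocalHom : IsLocalHom (s35bf_restr A h) where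
  map_nonunit a ha := by
    have h1 : IsUnit (s35bf_toA A L1' (s35bf_restr A h a)) := ha.map _
    rw [s35bf_toA_restr] at h1
    exact (s35bf_toA_isLocalHom A L1).map_nonunit a h1

/-- `f̄ : k1 → k1'`. -/
def s35bf_fbar : ResidueField ↥(A.comap (algebraMap ↥L1 Qb)) →+*
    ResidueField ↥(A.comap (algebraMap ↥L1' Qb)) :=
  ResidueField.map (s35bf_restr A h)

theorem s35bf_fbar_residue (a : ↥(A.comap (algebraMap ↥L1 Qb))) :
    s35bf_fbar A h (residue _ a) =
      residue _ (⟨s35bf_incl h (a : ↥L1), s35bf_incl_mem A h _ a.2⟩ :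
        ↥(A.comap (algebraMap ↥L1' Qb))) :=
  ResidueField.map_residue _ a

/-- `j' ∘ f̄ = j`. -/
theorem s35bf_j_comp (c : ResidueField ↥(A.comap (algebraMap ↥L1 Qb))) :
    s35bf_j A L1' (s35bf_fbar A h c) = s35bf_j A L1 c := by
  obtain ⟨a, rfl⟩ := residue_surjective c
  rw [s35bf_fbar_residue, s35bf_j_residue, s35bf_j_residue]
  rfl

end Level

section Algebraic

/-- every residue class of a valuation ring `V` (residue characteristic `q`) at an element which is
algebraic over `ℤ` is a root of an integral polynomial which does not vanish mod `q`. -/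
theorem s35bf_exists_intPoly {K : Type*} [Field K] [CharZero K] (V : ValuationSubring K) (q : ℕ)
    [hq : Fact q.Prime] [CharP (ResidueField ↥V) q] (a : ↥V) (ha : IsAlgebraic ℤ (a : K)) :
    ∃ p : ℤ[X], p.map (Int.castRingHom (ResidueField ↥V)) ≠ 0 ∧
      (p.map (Int.castRingHom (ResidueField ↥V))).eval (residue ↥V a) = 0 := by
  obtain ⟨p, hp0, hpa⟩ := ha
  set r := p.primPart with hr
  have hr0 : r ≠ 0 := Polynomial.primPart_ne_zero p
  have hra : Polynomial.aeval (a : K) r = 0 := Polynomial.aeval_primPart_eq_zero hp0 hpa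
  have hrprim : r.IsPrimitive := p.isPrimitive_primPart
  refine ⟨r, ?_, ?_⟩
  · intro h
    have hdvd : (Polynomial.C (q : ℤ)) ∣ r := by
      rw [Polynomial.C_dvd_iff_dvd_coeff]
      intro i
      have := congrArg (fun s => s.coeff i) h
      simp only [Polynomial.coeff_map, Polynomial.coeff_zero] at this
      have h2 : ((r.coeff i : ℤ) : ResidueField ↥V) = 0 := this
      exact (CharP.intCast_eq_zero_iff (ResidueField ↥V) q _).mp h2
    exact (Nat.prime_iff_prime_int.mp hq.out).not_isUnit (hrprim _ hdvd)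
  · have hV0 : Polynomial.eval₂ (Int.castRingHom ↥V) a r = 0 := by
      apply V.subtype_injective
      rw [map_zero, Polynomial.hom_eval₂]
      have : (V.subtype.comp (Int.castRingHom ↥V)) = algebraMap ℤ K := RingHom.ext_int _ _
      rw [this]
      exact hra
    rw [Polynomial.eval_map]
    have e : Int.castRingHom (ResidueField ↥V) = (residue ↥V).comp (Int.castRingHom ↥V) :=
      RingHom.ext_int _ _
    rw [e, ← Polynomial.hom_eval₂, hV0, map_zero]

variable (A : ValuationSubring Qb) (L1 : IntermediateField ℚ Qb) (q : ℕ) [hq : Fact q.Prime]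

theorem s35bf_isAlgebraic_int (a : Qb) : IsAlgebraic ℤ a := by
  haveI : Algebra.IsAlgebraic ℚ Qb := AlgebraicClosure.isAlgebraic ℚ
  exact (IsFractionRing.isAlgebraic_iff ℤ ℚ Qb).mpr (Algebra.IsAlgebraic.isAlgebraic a)

/-- **`kb` is algebraic over `k1`** (monic polynomial form, as in `s35bs_ord_of_factor`). -/
theorem s35bf_halg [CharP (ResidueField ↥A) q] (c : ResidueField ↥A) :
    ∃ p : (ResidueField ↥(A.comap (algebraMap ↥L1 Qb)))[X], p.Monic ∧
      (p.map (s35bf_j A L1)).eval c = 0 := by
  obtain ⟨a, rfl⟩ := residue_surjective c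
  obtain ⟨p, hp0, hpa⟩ := s35bf_exists_intPoly A q a (s35bf_isAlgebraic_int (a : Qb))
  set p1 := p.map (Int.castRingHom (ResidueField ↥(A.comap (algebraMap ↥L1 Qb)))) with hp1
  have hmap : p1.map (s35bf_j A L1) = p.map (Int.castRingHom (ResidueField ↥A)) := by
    rw [hp1, Polynomial.map_map]
    congr 1
  have hp10 : p1 ≠ 0 := by
    intro h0
    rw [h0, Polynomial.map_zero] at hmap
    exact hp0 hmap.symm
  refine ⟨p1 * Polynomial.C p1.leadingCoeff⁻¹, Polynomial.monic_mul_leadingCoeff_inv hp10, ?_⟩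
  rw [Polynomial.map_mul, Polynomial.eval_mul, hmap, hpa, zero_mul]

/-- the residue field of a level is algebraic over the prime field. -/
theorem s35bf_isAlgebraic_zmod [CharP (ResidueField ↥(A.comap (algebraMap ↥L1 Qb))) q] :
    letI : Algebra (ZMod q) (ResidueField ↥(A.comap (algebraMap ↥L1 Qb))) := ZMod.algebra _ q
    Algebra.IsAlgebraic (ZMod q) (ResidueField ↥(A.comap (algebraMap ↥L1 Qb))) := by
  letI : Algebra (ZMod q) (ResidueField ↥(A.comap (algebraMap ↥L1 Qb))) := ZMod.algebra _ q
  constructor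
  intro c
  obtain ⟨a, rfl⟩ := residue_surjective c
  have haZ : IsAlgebraic ℤ ((a : ↥L1)) := by
    have h1 := s35bf_isAlgebraic_int ((a : ↥L1) : Qb)
    obtain ⟨p, hp0, hpa⟩ := h1
    refine ⟨p, hp0, ?_⟩
    apply (algebraMap ↥L1 Qb).injective
    rw [map_zero, ← Polynomial.aeval_algebraMap_apply]
    exact hpa
  obtain ⟨p, hp0, hpa⟩ := s35bf_exists_intPoly (A.comap (algebraMap ↥L1 Qb)) q a haZ
  refine ⟨p.map (Int.castRingHom (ZMod q)), ?_, ?_⟩
  · intro h0
    apply hp0
    have : p.map (Int.castRingHom (ResidueField ↥(A.comap (algebraMap ↥L1 Qb)))) =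
        (p.map (Int.castRingHom (ZMod q))).map
          (algebraMap (ZMod q) (ResidueField ↥(A.comap (algebraMap ↥L1 Qb)))) := by
      rw [Polynomial.map_map]
      congr 1
      exact RingHom.ext_int _ _
    rw [this, h0, Polynomial.map_zero]
  · rw [Polynomial.aeval_def, Polynomial.eval₂_map]
    have e : (algebraMap (ZMod q) (ResidueField ↥(A.comap (algebraMap ↥L1 Qb)))).comp
        (Int.castRingHom (ZMod q)) =
        Int.castRingHom (ResidueField ↥(A.comap (algebraMap ↥L1 Qb))) := RingHom.ext_int _ _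
    rw [e, ← Polynomial.eval_map]
    exact hpa

/-- **the residue field of a level is perfect.** -/
theorem s35bf_perfectRing [CharP (ResidueField ↥(A.comap (algebraMap ↥L1 Qb))) q] :
    PerfectRing (ResidueField ↥(A.comap (algebraMap ↥L1 Qb))) q := by
  letI : Algebra (ZMod q) (ResidueField ↥(A.comap (algebraMap ↥L1 Qb))) := ZMod.algebra _ q
  haveI := s35bf_isAlgebraic_zmod A L1 q
  haveI : PerfectField (ResidueField ↥(A.comap (algebraMap ↥L1 Qb))) :=
    Algebra.IsAlgebraic.perfectField (K := ZMod q)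
  exact PerfectField.toPerfectRing q

end Algebraic

end Fermat.Agent.S35
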