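/-
Project S35, cell [ABEL-FAM] (helper13): GENERIC TOOLS FOR THE TWO TOWERS.  Prefix `s35bf_`.

* `s35bf_adjoin_map`     : `coeffMap f` maps `L(S)` into `L'(S')` if it maps `S` into `L'(S')`;
* `s35bf_finrank_le_of_comp` : a field `FL ⊆ L((X))` which is the compositum `L · coeffMap (F0)` of a
                           function field `F0 ⊆ ℚ((X))` has degree over `L(x)` at most `[F0 : ℚ(x0)]`
                           (the UNIFORM degree bound of a tower);
* `s35bf_comp_mono`      : the composita `kb · coeffMap j (κ'(L1))` increase with the level;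
* `s35bf_IsLev`          : the levels `L1 ⊆ Q̄` of the seams `s35_AbelNF1` / `s35h_AbelNF1`;
* `s35bf_exists_finset`  : a finite generating set of a finite level.
-/
import Mathlib
import Fermat.Agent.S35.AbelFam.Level
import Fermat.Agent.S35.AbelSS.Comp
import Fermat.Agent.S35.Kappa.Mono

set_option autoImplicit false
set_option linter.unusedSectionVars false
set_option linter.unusedVariables false
set_option linter.style.haveILetI false

noncomputable section

namespace Fermat.Agent.S35

open ModularCurve IsLocalRing Polynomial IntermediateField Fermat.Agent.JT3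

local notation "Qb" => AlgebraicClosure ℚ
local notation "GQ" => (AlgebraicClosure ℚ ≃ₐ[ℚ] AlgebraicClosure ℚ)

section AdjoinMap

variable {L L' : Type*} [Field L] [Field L'] (f : L →+* L')

theorem s35bf_coeffMap_algebraMap (a : L) :
    coeffMap f (algebraMap L (LaurentSeries L) a) = algebraMap L' (LaurentSeries L') (f a) := by
  rw [algebraMap_laurentSeries_eq_single, algebraMap_laurentSeries_eq_single, coeffMap_single]

/-- `coeffMap f` maps `L(S)` into `L'(S')` as soon as it maps `S` into `L'(S')`. -/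
theorem s35bf_adjoin_map (S : Set (LaurentSeries L)) (S' : Set (LaurentSeries L'))
    (hS : ∀ y ∈ S, coeffMap f y ∈ IntermediateField.adjoin L' S') {z : LaurentSeries L}
    (hz : z ∈ IntermediateField.adjoin L S) : coeffMap f z ∈ IntermediateField.adjoin L' S' := by
  induction hz using IntermediateField.adjoin_induction with
  | mem y hy => exact hS y hy
  | algebraMap a =>
    rw [s35bf_coeffMap_algebraMap]
    exact (IntermediateField.adjoin L' S').algebraMap_mem _
  | add x y _ _ hx hy => rw [map_add]; exact add_mem hx hy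
  | inv x _ hx => rw [map_inv₀]; exact inv_mem hx
  | mul x y _ _ hx hy => rw [map_mul]; exact mul_mem hx hy

end AdjoinMap

section Degree

universe u

variable {K0 : Type u} [Field K0] {L : Type u} [Field L] [Algebra K0 L]
  (F0 : IntermediateField K0 (LaurentSeries K0)) (x0 : ↥F0)
  (FL : IntermediateField L (LaurentSeries L))
  (hFL : FL = s35bs_comp (algebraMap K0 L) F0) (xL : ↥FL)
  (hxL : (xL : LaurentSeries L) = coeffMap (algebraMap K0 L) (x0 : LaurentSeries K0))

include hFL hxL in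
/-- **uniform degree bound**: `[L · F0 : L(x)] ≤ [F0 : K0(x0)]`. -/
theorem s35bf_finrank_le_of_comp [FiniteDimensional K0⟮x0⟯ ↥F0] :
    FiniteDimensional L⟮xL⟯ ↥FL ∧ Module.finrank L⟮xL⟯ ↥FL ≤ Module.finrank K0⟮x0⟯ ↥F0 := by
  subst hFL
  have hx : xL = s35bs_xb (algebraMap K0 L) F0 x0 := Subtype.ext hxL
  rw [hx]
  exact ⟨s35bs_comp_finiteDimensional (algebraMap K0 L) F0 x0,
    s35bs_comp_finrank_le (algebraMap K0 L) F0 x0⟩

end Degree

section Mono

variable (A : ValuationSubring Qb) {L1 L1' : IntermediateField ℚ Qb} (h : L1 ≤ L1')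
  [IsDiscreteValuationRing ↥(A.comap (algebraMap ↥L1 Qb))]
  [IsDiscreteValuationRing ↥(A.comap (algebraMap ↥L1' Qb))]
  {π : ↥(A.comap (algebraMap ↥L1 Qb))} (hπ : Irreducible π)
  {π' : ↥(A.comap (algebraMap ↥L1' Qb))} (hπ' : Irreducible π')
  (E' : IntermediateField ↥L1 (LaurentSeries ↥L1))
  (hE' : E' ≤ gq_quotField ↥(A.comap (algebraMap ↥L1 Qb)) ↥L1)
  (E'' : IntermediateField ↥L1' (LaurentSeries ↥L1'))
  (hE'' : E'' ≤ gq_quotField ↥(A.comap (algebraMap ↥L1' Qb)) ↥L1')
  (hmap : ∀ z ∈ E', coeffMap (s35bf_incl h) z ∈ E'')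

include hmap in
/-- **the composita `kb · coeffMap j (κ'(L1))` increase with the level.** -/
theorem s35bf_comp_mono :
    s35bs_comp (s35bf_j A L1) (s35kp_kappa (A.comap (algebraMap ↥L1 Qb)) hπ E' hE') ≤
      s35bs_comp (s35bf_j A L1') (s35kp_kappa (A.comap (algebraMap ↥L1' Qb)) hπ' E'' hE'') := by
  rw [s35bs_comp, IntermediateField.adjoin_le_iff]
  rintro _ ⟨y, hy, rfl⟩
  have h1 : coeffMap (s35bf_fbar A h) y ∈
      s35kp_kappa (A.comap (algebraMap ↥L1' Qb)) hπ' E'' hE'' :=
    s35kp_kappa_map_mem (A.comap (algebraMap ↥L1 Qb)) hπ (A.comap (algebraMap ↥L1' Qb)) hπ'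
      E' hE' E'' hE'' (s35bf_incl h) (fun a ha => s35bf_incl_mem A h a ha) (s35bf_fbar A h)
      (fun a => s35bf_fbar_residue A h a) hmap hy
  have h2 : coeffMap (s35bf_j A L1) y =
      coeffMap (s35bf_j A L1') (coeffMap (s35bf_fbar A h) y) := by
    rw [coeffMap_coeffMap]
    exact coeffMap_congr (RingHom.ext fun c => (s35bf_j_comp A h c).symm) y
  show coeffMap (s35bf_j A L1) y ∈ _
  rw [h2]
  exact s35bs_map_mem_comp _ _ h1

end Mono

section Lev

variable (A : ValuationSubring Qb) (q : ℕ) (φ : GQ)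

/-- **the levels** of the seams `s35_AbelNF1` / `s35h_AbelNF1`. -/
structure s35bf_IsLev (L1 : IntermediateField ℚ Qb) : Prop where
  fin : FiniteDimensional ℚ L1
  fixed : ∀ x ∈ L1, ∀ s ∈ A.inertiaSubgroupIn ℚ, s x = x
  dvr : IsDiscreteValuationRing ↥(A.comap (algebraMap ↥L1 Qb))
  charP : CharP (ResidueField ↥(A.comap (algebraMap ↥L1 Qb))) q
  irr : Irreducible ((q : ℕ) : ↥(A.comap (algebraMap ↥L1 Qb)))
  frob : ∃ φ1 : ↥L1 ≃+* ↥L1, ∀ x : ↥L1, ((φ1 x : ↥L1) : Qb) = φ (x : Qb)

/-- a finite level is generated (as a `ℚ`-vector space) by a finite set: any subfield containing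
that set contains the level. -/
theorem s35bf_exists_finset (L0 : IntermediateField ℚ Qb) [FiniteDimensional ℚ L0] :
    ∃ T : Finset Qb, (∀ t ∈ T, t ∈ L0) ∧
      ∀ L1 : IntermediateField ℚ Qb, (↑T : Set Qb) ⊆ L1 → L0 ≤ L1 := by
  classical
  set b := Module.finBasis ℚ ↥L0 with hb
  refine ⟨Finset.univ.image fun i => ((b i : ↥L0) : Qb), ?_, ?_⟩
  · intro t ht
    rw [Finset.mem_image] at ht
    obtain ⟨i, -, rfl⟩ := ht
    exact (b i).2
  · intro L1 hT x hx
    have h1 : (⟨x, hx⟩ : ↥L0) = ∑ i, b.repr ⟨x, hx⟩ i • b i := (b.sum_repr _).symm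
    have h2 : x = ∑ i, b.repr ⟨x, hx⟩ i • ((b i : ↥L0) : Qb) := by
      have h3 := congrArg (fun z : ↥L0 => L0.val z) h1
      simp only [map_sum] at h3
      exact h3
    rw [h2]
    refine sum_mem fun i _ => ?_
    refine L1.smul_mem ?_
    apply hT
    rw [Finset.coe_image, Finset.coe_univ, Set.image_univ]
    exact ⟨i, rfl⟩

end Lev

end Fermat.Agent.S35
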