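/-
Project S35, cell [ABEL-FAM] (helper13): [ABEL-SS] FOR A MONOTONE FAMILY OF LEVELS, WITH AN EXPONENT
UNIFORM ABOVE A STABILISATION LEVEL.  Prefix `s35bf_`.

A family of "levels" `i : ι` (a preorder): fields `k i → kb` (`kb` algebraically closed of
characteristic `q`, algebraic over each `k i`), function fields `F i ⊆ (k i)((X))` stable under the
coefficientwise Frobenius, coordinates `x i ∈ F i` with the SAME image `x̄ ∈ kb((X))`
(Frobenius-fixed, of order prime to `q`), `[F i : k i (x i)] ≤ n`, and the composita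
`kb · coeffMap (F i)` increasing with `i`.

* `s35bf_AbelProp q F1 E m` : the conclusion of [ABEL-SS] for `(k1, F1)` with exponent `E` at `m`, the
                              divisibility of the orders in FACTOR FORM (at every valuation ring of
                              `F1 / k1` with algebraic residue field, `u = ω · e ^ m`, `ω` a unit);
* `s35bf_tower`             : above any level there is a level `i0` and `E ≥ 1` such that
                              `s35bf_AbelProp q (F i) E m` for ALL `i ≥ i0` and all `m` prime to `q`.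
-/
import Mathlib
import Fermat.Agent.S35.AbelSS.Main
import Fermat.Agent.S35.AbelSS.Ord
import Fermat.Agent.S35.AbelSS.Stab

set_option autoImplicit false
set_option linter.unusedSectionVars false
set_option linter.unusedVariables false
set_option linter.style.haveILetI false

noncomputable section

namespace Fermat.Agent.S35

open ModularCurve IsLocalRing Polynomial IntermediateField AlgebraicCurve Fermat.Agent.JT3

universe u v

/-- the [ABEL-SS] property of `(k1, F1)` with exponent `E` at `m`, orders in factor form. -/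
def s35bf_AbelProp (q : ℕ) [Fact q.Prime] {k1 : Type*} [Field k1] [CharP k1 q]
    (F1 : IntermediateField k1 (LaurentSeries k1)) (E m : ℕ) : Prop :=
  ∀ (u₁ u₂ h h' : LaurentSeries k1) (hu₁ : u₁ ∈ F1) (hu₂ : u₂ ∈ F1) (c c' : k1),
    h ∈ F1 → h' ∈ F1 → u₁ ≠ 0 → u₂ ≠ 0 →
    (∀ 𝒪 : ValuationSubring ↥F1, (∀ a : k1, algebraMap k1 ↥F1 a ∈ 𝒪) →
      (∀ z ∈ 𝒪, ∃ p : k1[X], p.Monic ∧ aeval z p ∈ 𝒪.nonunits) →
      ∃ ω e : ↥F1, (⟨u₁, hu₁⟩ : ↥F1) = ω * e ^ m ∧ ω ∈ 𝒪 ∧ ω⁻¹ ∈ 𝒪) →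
    (∀ 𝒪 : ValuationSubring ↥F1, (∀ a : k1, algebraMap k1 ↥F1 a ∈ 𝒪) →
      (∀ z ∈ 𝒪, ∃ p : k1[X], p.Monic ∧ aeval z p ∈ 𝒪.nonunits) →
      ∃ ω e : ↥F1, (⟨u₂, hu₂⟩ : ↥F1) = ω * e ^ m ∧ ω ∈ 𝒪 ∧ ω⁻¹ ∈ 𝒪) →
    u₁ * coeffMap (frobenius k1 q) u₂ = algebraMap k1 (LaurentSeries k1) c * h ^ m →
    coeffMap (frobenius k1 q) u₁ * u₂ = algebraMap k1 (LaurentSeries k1) c' * h' ^ m →
    (∃ (a : k1) (w : LaurentSeries k1), a ≠ 0 ∧ w ∈ F1 ∧ w ≠ 0 ∧
        u₁ ^ E = algebraMap k1 (LaurentSeries k1) a * w ^ m) ∧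
      ∃ (a : k1) (w : LaurentSeries k1), a ≠ 0 ∧ w ∈ F1 ∧ w ≠ 0 ∧
        u₂ ^ E = algebraMap k1 (LaurentSeries k1) a * w ^ m

section Tower

variable {q : ℕ} [hq : Fact q.Prime] [NeZero q] {kb : Type u} [Field kb] [IsAlgClosed kb]
  [CharP kb q]
  {ι : Type v} [Preorder ι]
  (k : ι → Type u) [∀ i, Field (k i)] [∀ i, CharP (k i) q] [∀ i, PerfectRing (k i) q]
  (j : ∀ i, k i →+* kb)
  (F : ∀ i, IntermediateField (k i) (LaurentSeries (k i)))
  (x : ∀ i, ↥(F i)) [∀ i, FiniteDimensional (k i)⟮x i⟯ ↥(F i)]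
  (xbar : LaurentSeries kb)
  (hx : ∀ i, coeffMap (j i) (x i : LaurentSeries (k i)) = xbar)
  (hmono : ∀ i i', i ≤ i' → s35bs_comp (j i) (F i) ≤ s35bs_comp (j i') (F i'))
  (n : ℕ) (hdeg : ∀ i, Module.finrank (k i)⟮x i⟯ ↥(F i) ≤ n)
  (hFr : ∀ i, ∀ y ∈ F i, coeffMap (frobenius (k i) q) y ∈ F i)
  (hFr' : ∀ i, ∀ y ∈ F i, coeffMap ((frobeniusEquiv (k i) q).symm : k i →+* k i) y ∈ F i)
  (hFq : coeffMap (frobenius kb q) xbar = xbar) (hord : ¬ (q : ℤ) ∣ xbar.order)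
  (halg : ∀ i, ∀ c : kb, ∃ p : (k i)[X], p.Monic ∧ (p.map (j i)).eval c = 0)

include hx hmono hdeg hFr hFr' hFq hord halg in
/-- **[ABEL-SS] for a family of levels**: a stabilisation level and a uniform exponent. -/
theorem s35bf_tower (i00 : ι) :
    ∃ i0, i00 ≤ i0 ∧ ∃ E : ℕ, 1 ≤ E ∧ ∀ i, i0 ≤ i → ∀ m : ℕ, ¬ q ∣ m →
      s35bf_AbelProp q (F i) E m := by
  -- the family of composita
  have hxmem : ∀ i, xbar ∈ s35bs_comp (j i) (F i) := fun i => by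
    rw [← hx i]; exact s35bs_map_mem_comp (j i) (F i) (x i).2
  have hxb : ∀ i, (⟨xbar, hxmem i⟩ : ↥(s35bs_comp (j i) (F i))) = s35bs_xb (j i) (F i) (x i) :=
    fun i => Subtype.ext (hx i).symm
  have hfin : ∀ i, FiniteDimensional
      kb⟮(⟨xbar, hxmem i⟩ : ↥(s35bs_comp (j i) (F i)))⟯ ↥(s35bs_comp (j i) (F i)) := by
    intro i
    rw [hxb i]
    exact s35bs_comp_finiteDimensional (j i) (F i) (x i)
  have hdeg' : ∀ i, Module.finrank
      kb⟮(⟨xbar, hxmem i⟩ : ↥(s35bs_comp (j i) (F i)))⟯ ↥(s35bs_comp (j i) (F i)) ≤ n := by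
    intro i
    rw [hxb i]
    exact le_trans (s35bs_comp_finrank_le (j i) (F i) (x i)) (hdeg i)
  obtain ⟨i0, hi0, hstab⟩ := s35bs_stabilise (fun i => s35bs_comp (j i) (F i))
    (fun i i' h => hmono i i' h) xbar hxmem n hfin hdeg' i00
  refine ⟨i0, hi0, ?_⟩
  -- the fixed function field over `kb`
  set Fb : IntermediateField kb (LaurentSeries kb) := s35bs_comp (j i0) (F i0) with hFb
  haveI := hfin i0
  haveI : PerfectRing kb q := inferInstance
  obtain ⟨E, hE1, hE⟩ := s35bs_abel (q := q) Fb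
    (s35bs_comp_frob (j i0) (F i0) (hFr i0))
    (s35bs_comp_frob_symm (j i0) (F i0) (hFr' i0))
    (⟨xbar, hxmem i0⟩ : ↥Fb) hFq hord
  refine ⟨E, hE1, ?_⟩
  intro i hi m hm u₁ u₂ h h' hu₁ hu₂ c c' hh hh' hu₁0 hu₂0 hfac₁ hfac₂ hR1 hR2
  have hst : s35bs_comp (j i) (F i) = Fb := hstab i hi
  have hF1 : ∀ y ∈ F i, coeffMap (j i) y ∈ Fb := fun y hy => by
    rw [← hst]; exact s35bs_map_mem_comp (j i) (F i) hy
  have hFble : Fb ≤ IntermediateField.adjoin kb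
      (coeffMap (j i) '' (F i : Set (LaurentSeries (k i)))) := by
    rw [← hst]; exact le_rfl
  haveI : Algebra.IsAlgebraic kb⟮(⟨xbar, hxmem i0⟩ : ↥Fb)⟯ ↥Fb := inferInstance
  refine hE (j i) (F i) hF1 hFble m hm u₁ u₂ h h' hu₁ hu₂ c c' hh hh' hu₁0 hu₂0 ?_ ?_ hR1 hR2
  · intro v
    exact s35bs_ord_of_factor (j i) (F i) Fb hF1 (halg i) (⟨xbar, hxmem i0⟩ : ↥Fb)
      (u := ⟨u₁, hu₁⟩) m hfac₁ v
  · intro v
    exact s35bs_ord_of_factor (j i) (F i) Fb hF1 (halg i) (⟨xbar, hxmem i0⟩ : ↥Fb)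
      (u := ⟨u₂, hu₂⟩) m hfac₂ v

end Tower

end Fermat.Agent.S35
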