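/-
Project S35, cell [ABEL-FAM] (helper13): THE LEGENDRE TOWER.  Prefix `s35bf_`.

`A` a valuation ring of `Q̄` over `q` (odd), `φ` a Frobenius element at `A`.  The levels are the finite
subfields `L1 ⊆ Q̄` fixed by the inertia group, with `O1 = A ∩ L1` a discrete valuation ring of
uniformiser `q`, stable under `φ` (`s35bf_IsLev`).  For each level, `κ'(L1) ⊆ k1((X))` is the residue
function field of the Gauss valuation of `lg_E L1 N'` (`s35kp_kappa`), with coordinate `λ̄`.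

* `s35bf_lg_E_map`      : `coeffMap f` maps `lg_E L N` into `lg_E L' N` (two fields);
* `s35bf_lg_E_eq_comp`  : `lg_E L' N = L' · coeffMap f (lg_E L N)`;
* `s35bf_legF`, `s35bf_legx` : `κ'(L1)` and `λ̄ ∈ κ'(L1)`;
* `s35bf_leg`           : **the output of the cell**: an exponent `E ≥ 1` and an inertia-fixed finite set
                          `T` such that for every level `L1 ⊇ T` and every `m` prime to `q` the
                          [ABEL-SS] property `s35bf_AbelProp q κ'(L1) E m` holds.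
-/
import Mathlib
import Fermat.Agent.S35.AbelFam.Tower
import Fermat.Agent.S35.AbelFam.Gen
import Fermat.Agent.S35.Kappa.Frob
import Fermat.Agent.S35.ToricInst.LegNF
import Fermat.Agent.SS.Model.GaussSigma
import Fermat.Agent.JT3.Inst.FunFieldFacts
import Fermat.Agent.JT3.S18.ConstRed

set_option autoImplicit false
set_option linter.unusedSectionVars false
set_option linter.unusedVariables false
set_option linter.style.haveILetI false

noncomputable section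

namespace Fermat.Agent.S35

open ModularCurve IsLocalRing Polynomial IntermediateField AlgebraicCurve Fermat.Agent.JT3
  Fermat.Agent.SS

local notation "Qb" => AlgebraicClosure ℚ
local notation "GQ" => (AlgebraicClosure ℚ ≃ₐ[ℚ] AlgebraicClosure ℚ)

/-! ### naturality of `lg_E` in the coefficient field -/

section Nat

variable {L L' : Type*} [Field L] [CharZero L] [Field L'] [CharZero L'] (f : L →+* L')
  (N : ℕ) [NeZero N]

theorem s35bf_lg_gen_map {y : LaurentSeries L} (hy : y ∈ lgf_gens L N) :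
    coeffMap f y ∈ lgf_gens L' N := by
  rcases hy with ⟨_, ⟨d, hd, hdN, rfl⟩, rfl⟩ | hy
  · haveI := hd
    refine Or.inl ⟨qExpand L' d (jqModC L'), ⟨d, hd, hdN, rfl⟩, ?_⟩
    rw [lg_coeffMap_phi, coeffMap_qExpand, coeffMap_jqModC]
  · refine Or.inr ?_
    rw [Set.mem_singleton_iff] at hy ⊢
    rw [hy, lg_coeffMap_lam]

/-- `coeffMap f` maps `lg_E L N` into `lg_E L' N`. -/
theorem s35bf_lg_E_map {z : LaurentSeries L} (hz : z ∈ lg_E L N) : coeffMap f z ∈ lg_E L' N := by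
  rw [lgf_E_eq_adjoin] at hz ⊢
  exact s35bf_adjoin_map f _ _
    (fun y hy => IntermediateField.subset_adjoin _ _ (s35bf_lg_gen_map f N hy)) hz

/-- `lg_E L' N = L' · coeffMap f (lg_E L N)`. -/
theorem s35bf_lg_E_eq_comp : lg_E L' N = s35bs_comp f (lg_E L N) := by
  apply le_antisymm
  · rw [lgf_E_eq_adjoin, IntermediateField.adjoin_le_iff]
    intro y hy
    rcases hy with ⟨_, ⟨d, hd, hdN, rfl⟩, rfl⟩ | hy
    · haveI := hd
      have e : lg_phi L' (qExpand L' d (jqModC L')) =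
          coeffMap f (lg_phi L (qExpand L d (jqModC L))) := by
        rw [lg_coeffMap_phi, coeffMap_qExpand, coeffMap_jqModC]
      rw [e]
      refine s35bs_map_mem_comp f _ ?_
      rw [lgf_E_eq_adjoin]
      exact IntermediateField.subset_adjoin _ _
        (Or.inl ⟨qExpand L d (jqModC L), ⟨d, hd, hdN, rfl⟩, rfl⟩)
    · rw [Set.mem_singleton_iff] at hy
      rw [hy, ← lg_coeffMap_lam L f]
      exact s35bs_map_mem_comp f _ (lg_lam_mem_E L N)
  · rw [s35bs_comp, IntermediateField.adjoin_le_iff]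
    rintro _ ⟨y, hy, rfl⟩
    exact s35bf_lg_E_map f N hy

/-- the degree `[lg_E K0 N : K0(λ)]` (generic in the field, to be used at `K0 = ℚ`). -/
def s35bf_legN (K0 : Type*) [Field K0] (N : ℕ) [NeZero N] : ℕ :=
  Module.finrank K0⟮(lg_lamE N : ↥(lg_E K0 N))⟯ ↥(lg_E K0 N)

end Nat

/-! ### small facts in characteristic `q` -/

section Small

variable {q : ℕ} [hq : Fact q.Prime]

theorem s35bf_two_ne_zero (hq2 : ¬ 2 ∣ q) (k : Type*) [Field k] [CharP k q] : (2 : k) ≠ 0 := by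
  intro h
  have h2 : ((2 : ℕ) : k) = 0 := by exact_mod_cast h
  rw [CharP.cast_eq_zero_iff k q 2] at h2
  rcases (Nat.dvd_prime Nat.prime_two).1 h2 with h1 | h1
  · exact hq.out.one_lt.ne' h1
  · exact hq2 (h1 ▸ dvd_rfl)

theorem s35bf_three_ne_zero (hq3 : ¬ 3 ∣ q) (k : Type*) [Field k] [CharP k q] : (3 : k) ≠ 0 := by
  intro h
  have h2 : ((3 : ℕ) : k) = 0 := by exact_mod_cast h
  rw [CharP.cast_eq_zero_iff k q 3] at h2
  rcases (Nat.dvd_prime Nat.prime_three).1 h2 with h1 | h1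
  · exact hq.out.one_lt.ne' h1
  · exact hq3 (h1 ▸ dvd_rfl)

theorem s35bf_not_dvd_one : ¬ (q : ℤ) ∣ 1 := by
  intro h
  have h1 : q ∣ 1 := by exact_mod_cast h
  exact hq.out.one_lt.ne' (Nat.dvd_one.1 h1)

theorem s35bf_not_dvd_neg_one : ¬ (q : ℤ) ∣ -1 := by
  intro h
  exact s35bf_not_dvd_one ((dvd_neg).1 h)

end Small

/-! ### the Legendre family -/

section Fam

variable (N' q : ℕ) [NeZero N'] [NeZero q] [hq : Fact q.Prime]
  (A : ValuationSubring Qb) (φ : GQ)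

/-- **`κ'(L1)`**: the residue function field of the Gauss valuation of `lg_E L1 N'`. -/
def s35bf_legF (L1 : IntermediateField ℚ Qb) (hL : s35bf_IsLev A q φ L1) :
    IntermediateField (ResidueField ↥(A.comap (algebraMap ↥L1 Qb)))
      (LaurentSeries (ResidueField ↥(A.comap (algebraMap ↥L1 Qb)))) :=
  haveI := hL.dvr
  s35kp_kappa (A.comap (algebraMap ↥L1 Qb)) hL.irr (lg_E ↥L1 N')
    (ssm_ga_E_le_quotField (A.comap (algebraMap ↥L1 Qb)) N')

theorem s35bf_lam_eq (L1 : IntermediateField ℚ Qb) :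
    ((lg_lamE N' : ↥(lg_E ↥L1 N')) : LaurentSeries ↥L1) =
      coeffMap (algebraMap ↥(A.comap (algebraMap ↥L1 Qb)) ↥L1)
        (hm_lam ↥(A.comap (algebraMap ↥L1 Qb))) :=
  (hm_coeffMap_lam _).symm

/-- **`λ̄ ∈ κ'(L1)`**. -/
def s35bf_legx (L1 : IntermediateField ℚ Qb) (hL : s35bf_IsLev A q φ L1) :
    ↥(s35bf_legF N' q A φ L1 hL) :=
  haveI := hL.dvr
  s35kp_xbar (A.comap (algebraMap ↥L1 Qb)) hL.irr (lg_E ↥L1 N')
    (ssm_ga_E_le_quotField (A.comap (algebraMap ↥L1 Qb)) N')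
    (hm_lam ↥(A.comap (algebraMap ↥L1 Qb))) (lg_lamE N') (s35bf_lam_eq N' A L1)

theorem s35bf_legx_coe (L1 : IntermediateField ℚ Qb) (hL : s35bf_IsLev A q φ L1) :
    ((s35bf_legx N' q A φ L1 hL : ↥(s35bf_legF N' q A φ L1 hL)) :
      LaurentSeries (ResidueField ↥(A.comap (algebraMap ↥L1 Qb)))) =
      hm_lam (ResidueField ↥(A.comap (algebraMap ↥L1 Qb))) := by
  haveI := hL.dvr
  have h := s35kp_xbar_coe (A.comap (algebraMap ↥L1 Qb)) hL.irr (lg_E ↥L1 N')
    (ssm_ga_E_le_quotField (A.comap (algebraMap ↥L1 Qb)) N')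
    (hm_lam ↥(A.comap (algebraMap ↥L1 Qb))) (lg_lamE N') (s35bf_lam_eq N' A L1)
  rw [hm_coeffMap_lam] at h
  exact h

variable (hq2 : ¬ 2 ∣ q)

include hq2 in
theorem s35bf_leg_htr (L1 : IntermediateField ℚ Qb) (hL : s35bf_IsLev A q φ L1) :
    ∀ p : (ResidueField ↥(A.comap (algebraMap ↥L1 Qb)))[X],
      aeval (coeffMap (residue ↥(A.comap (algebraMap ↥L1 Qb)))
        (hm_lam ↥(A.comap (algebraMap ↥L1 Qb)))) p = 0 → p = 0 := by
  haveI := hL.charP
  intro p hp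
  by_contra hne
  rw [hm_coeffMap_lam] at hp
  exact lgf_lam_transcendental' (ResidueField ↥(A.comap (algebraMap ↥L1 Qb)))
    (s35bf_two_ne_zero hq2 _) ⟨p, hne, hp⟩

include hq2 in
theorem s35bf_leg_fin (L1 : IntermediateField ℚ Qb) (hL : s35bf_IsLev A q φ L1) :
    FiniteDimensional
      (ResidueField ↥(A.comap (algebraMap ↥L1 Qb)))⟮s35bf_legx N' q A φ L1 hL⟯
      ↥(s35bf_legF N' q A φ L1 hL) := by
  haveI := hL.dvr
  haveI := lgf_finite ↥L1 N'
  exact s35kp_finiteDimensional (A.comap (algebraMap ↥L1 Qb)) hL.irr (lg_E ↥L1 N')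
    (ssm_ga_E_le_quotField (A.comap (algebraMap ↥L1 Qb)) N')
    (hm_lam ↥(A.comap (algebraMap ↥L1 Qb))) (lg_lamE N') (s35bf_lam_eq N' A L1)
    (s35bf_leg_htr q A φ hq2 L1 hL)

include hq2 in
/-- **the uniform degree bound.** -/
theorem s35bf_leg_deg (L1 : IntermediateField ℚ Qb) (hL : s35bf_IsLev A q φ L1) :
    Module.finrank
      (ResidueField ↥(A.comap (algebraMap ↥L1 Qb)))⟮s35bf_legx N' q A φ L1 hL⟯
      ↥(s35bf_legF N' q A φ L1 hL) ≤ s35bf_legN ℚ N' := by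
  haveI := hL.dvr
  haveI := lgf_finite ↥L1 N'
  haveI := lgf_finite ℚ N'
  refine le_trans (s35kp_finrank_le (A.comap (algebraMap ↥L1 Qb)) hL.irr (lg_E ↥L1 N')
    (ssm_ga_E_le_quotField (A.comap (algebraMap ↥L1 Qb)) N')
    (hm_lam ↥(A.comap (algebraMap ↥L1 Qb))) (lg_lamE N') (s35bf_lam_eq N' A L1)
    (s35bf_leg_htr q A φ hq2 L1 hL)) ?_
  exact (s35bf_finrank_le_of_comp (K0 := ℚ) (L := ↥L1) (lg_E ℚ N') (lg_lamE N') (lg_E ↥L1 N')
    (s35bf_lg_E_eq_comp (algebraMap ℚ ↥L1) N') (lg_lamE N')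
    (lg_coeffMap_lam ℚ (algebraMap ℚ ↥L1)).symm).2

variable (hφ : A.IsFrobeniusAt φ q)

include hφ in
theorem s35bf_leg_frob (L1 : IntermediateField ℚ Qb) (hL : s35bf_IsLev A q φ L1) :
    haveI := hL.charP
    ∀ y ∈ s35bf_legF N' q A φ L1 hL,
      coeffMap (frobenius (ResidueField ↥(A.comap (algebraMap ↥L1 Qb))) q) y ∈
        s35bf_legF N' q A φ L1 hL := by
  haveI := hL.dvr
  haveI := hL.charP
  obtain ⟨φ1, hφ1⟩ := hL.frob
  intro y hy
  exact s35kp_frob_mem (A.comap (algebraMap ↥L1 Qb)) hL.irr (lg_E ↥L1 N')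
    (ssm_ga_E_le_quotField (A.comap (algebraMap ↥L1 Qb)) N')
    (s35ti_frobAt_of_frobenius A φ hφ L1 φ1 hφ1)
    (fun z hz => ssm_gs_coeffMap_mem_E N' _ hz) hy

include hφ in
theorem s35bf_leg_frob_symm (L1 : IntermediateField ℚ Qb) (hL : s35bf_IsLev A q φ L1) :
    haveI := hL.charP
    haveI := s35bf_perfectRing A L1 q
    ∀ y ∈ s35bf_legF N' q A φ L1 hL,
      coeffMap ((frobeniusEquiv (ResidueField ↥(A.comap (algebraMap ↥L1 Qb))) q).symm :
        ResidueField ↥(A.comap (algebraMap ↥L1 Qb)) →+*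
          ResidueField ↥(A.comap (algebraMap ↥L1 Qb))) y ∈
        s35bf_legF N' q A φ L1 hL := by
  haveI := hL.dvr
  haveI := hL.charP
  haveI := s35bf_perfectRing A L1 q
  obtain ⟨φ1, hφ1⟩ := hL.frob
  intro y hy
  exact s35kp_frob_symm_mem (A.comap (algebraMap ↥L1 Qb)) hL.irr (lg_E ↥L1 N')
    (ssm_ga_E_le_quotField (A.comap (algebraMap ↥L1 Qb)) N')
    (s35ti_frobAt_of_frobenius A φ hφ L1 φ1 hφ1)
    (fun z hz => ssm_gs_coeffMap_mem_E N' _ hz)
    (fun z hz => ssm_gs_coeffMap_mem_E N' _ hz) hy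

theorem s35bf_leg_mono {L1 L1' : IntermediateField ℚ Qb} (hL : s35bf_IsLev A q φ L1)
    (hL' : s35bf_IsLev A q φ L1') (h : L1 ≤ L1') :
    s35bs_comp (s35bf_j A L1) (s35bf_legF N' q A φ L1 hL) ≤
      s35bs_comp (s35bf_j A L1') (s35bf_legF N' q A φ L1' hL') := by
  haveI := hL.dvr
  haveI := hL'.dvr
  exact s35bf_comp_mono A h hL.irr hL'.irr (lg_E ↥L1 N')
    (ssm_ga_E_le_quotField (A.comap (algebraMap ↥L1 Qb)) N') (lg_E ↥L1' N')
    (ssm_ga_E_le_quotField (A.comap (algebraMap ↥L1' Qb)) N')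
    (fun z hz => s35bf_lg_E_map (s35bf_incl h) N' hz)

end Fam

/-! ### the output of the cell -/

section Main

variable (N' q : ℕ) [NeZero N'] [NeZero q] [hq : Fact q.Prime] (hq2 : ¬ 2 ∣ q)
  (A : ValuationSubring Qb) (hA : A.LiesOverPrime q) (φ : GQ) (hφ : A.IsFrobeniusAt φ q)

include hq2 hA hφ in
/-- **[ABEL-FAM], Legendre**: a uniform exponent `E ≥ 1` and an inertia-fixed finite set `T` such that
the [ABEL-SS] property holds for `κ'(L1)` at every level `L1 ⊇ T`. -/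
theorem s35bf_leg :
    ∃ E : ℕ, 1 ≤ E ∧ ∃ T : Finset Qb, (∀ t ∈ T, ∀ s ∈ A.inertiaSubgroupIn ℚ, s t = t) ∧
      ∀ L1 : IntermediateField ℚ Qb, FiniteDimensional ℚ L1 → (↑T : Set Qb) ⊆ L1 →
        (∀ x ∈ L1, ∀ s ∈ A.inertiaSubgroupIn ℚ, s x = x) →
        ∀ [IsDiscreteValuationRing ↥(A.comap (algebraMap ↥L1 Qb))]
          [CharP (ResidueField ↥(A.comap (algebraMap ↥L1 Qb))) q]
          (hπ : Irreducible ((q : ℕ) : ↥(A.comap (algebraMap ↥L1 Qb)))),
          ∀ φ1 : ↥L1 ≃+* ↥L1, (∀ x : ↥L1, ((φ1 x : ↥L1) : Qb) = φ (x : Qb)) →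
            ∀ m : ℕ, ¬ q ∣ m →
              s35bf_AbelProp q (s35kp_kappa (A.comap (algebraMap ↥L1 Qb)) hπ (lg_E ↥L1 N')
                (ssm_ga_E_le_quotField (A.comap (algebraMap ↥L1 Qb)) N')) E m := by
  classical
  haveI : CharP (ResidueField ↥A) q := jcr_charP A hA
  haveI : IsAlgClosed (ResidueField ↥A) := jcr_isAlgClosed A
  by_cases hne : Nonempty {L1 : IntermediateField ℚ Qb // s35bf_IsLev A q φ L1}
  swap
  · refine ⟨1, le_rfl, ∅, fun t ht => absurd ht (Finset.notMem_empty t), ?_⟩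
    intro L1 hfd hT hfix hdvr hchar hπ φ1 hφ1 m hm
    exact absurd ⟨⟨L1, ⟨hfd, hfix, hdvr, hchar, hπ, ⟨φ1, hφ1⟩⟩⟩⟩ hne
  obtain ⟨i00⟩ := hne
  haveI hcharI : ∀ i : {L1 : IntermediateField ℚ Qb // s35bf_IsLev A q φ L1},
      CharP (ResidueField ↥(A.comap (algebraMap ↥i.1 Qb))) q := fun i => i.2.charP
  haveI hperfI : ∀ i : {L1 : IntermediateField ℚ Qb // s35bf_IsLev A q φ L1},
      PerfectRing (ResidueField ↥(A.comap (algebraMap ↥i.1 Qb))) q :=
    fun i => s35bf_perfectRing A i.1 q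
  haveI hfinI : ∀ i : {L1 : IntermediateField ℚ Qb // s35bf_IsLev A q φ L1},
      FiniteDimensional
        (ResidueField ↥(A.comap (algebraMap ↥i.1 Qb)))⟮s35bf_legx N' q A φ i.1 i.2⟯
        ↥(s35bf_legF N' q A φ i.1 i.2) := fun i => s35bf_leg_fin N' q A φ hq2 i.1 i.2
  have h2b : (2 : ResidueField ↥A) ≠ 0 := s35bf_two_ne_zero hq2 _
  have h16 : (16 : ResidueField ↥A) ≠ 0 := by
    have : (16 : ResidueField ↥A) = 2 ^ 4 := by norm_num
    rw [this]
    exact pow_ne_zero _ h2b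
  obtain ⟨i0, -, E, hE1, hE⟩ := s35bf_tower (q := q) (kb := ResidueField ↥A)
    (k := fun i : {L1 : IntermediateField ℚ Qb // s35bf_IsLev A q φ L1} =>
      ResidueField ↥(A.comap (algebraMap ↥i.1 Qb)))
    (j := fun i => s35bf_j A i.1)
    (F := fun i => s35bf_legF N' q A φ i.1 i.2)
    (x := fun i => s35bf_legx N' q A φ i.1 i.2)
    (xbar := hm_lam (ResidueField ↥A))
    (fun i => by
      show coeffMap (s35bf_j A i.1) ((s35bf_legx N' q A φ i.1 i.2 :
        ↥(s35bf_legF N' q A φ i.1 i.2)) : LaurentSeries _) = _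
      rw [s35bf_legx_coe, hm_coeffMap_lam])
    (fun i i' h => s35bf_leg_mono N' q A φ i.2 i'.2 h)
    (s35bf_legN ℚ N')
    (fun i => s35bf_leg_deg N' q A φ hq2 i.1 i.2)
    (fun i => s35bf_leg_frob N' q A φ hφ i.1 i.2)
    (fun i => s35bf_leg_frob_symm N' q A φ hφ i.1 i.2)
    (hm_coeffMap_lam _)
    (by rw [hm_lam_order _ h16]; exact s35bf_not_dvd_one)
    (fun i c => s35bf_halg A i.1 q c)
    i00
  haveI := i0.2.fin
  obtain ⟨T, hTmem, hTgen⟩ := s35bf_exists_finset i0.1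
  refine ⟨E, hE1, T, fun t ht s hs => i0.2.fixed t (hTmem t ht) s hs, ?_⟩
  intro L1 hfd hT hfix hdvr hchar hπ φ1 hφ1 m hm
  have hle : i0.1 ≤ L1 := hTgen L1 hT
  exact hE ⟨L1, ⟨hfd, hfix, hdvr, hchar, hπ, ⟨φ1, hφ1⟩⟩⟩ hle m hm

end Main

end Fermat.Agent.S35
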