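/-
Project S35, cell [ABEL-FAM] (helper13): THE HESSE TOWER (twin of `S35/AbelFam/Leg.lean`).
Prefix `s35bf_`.

`A` a valuation ring of `Q̄` over `q ≠ 3`, `φ` a Frobenius element at `A`; levels `s35bf_IsLev`; for
each level, `κ'(L1) ⊆ k1((X))` is the residue function field of the Gauss valuation of
`hs_E L1 _ N'`, with coordinate `μ̄` (of `X`-order `-1`).

* `s35bf_hs_E_map`      : `coeffMap f` maps `hs_E L h3 N` into `hs_E L' h3' N`;
* `s35bf_hs_E_eq_comp`  : `hs_E L' h3' N = L' · coeffMap f (hs_E L h3 N)`;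
* `s35bf_three_isUnit`  : `3` is a unit of `O1` at every level (`q ≠ 3`);
* `s35bf_hesF`, `s35bf_hesx` : `κ'(L1)` and `μ̄ ∈ κ'(L1)`;
* `s35bf_hes`           : **the output of the cell**, Hesse cover.
-/
import Mathlib
import Fermat.Agent.S35.AbelFam.Leg
import Fermat.Agent.SS.Model.SigmaHesse
import Fermat.Agent.JT3.Inst.HesseFunFieldFacts
import Fermat.Agent.JT3.Inst.HesseH4a

set_option autoImplicit false
set_option linter.unusedSectionVars false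
set_option linter.unusedVariables false
set_option linter.style.haveILetI false

noncomputable section

namespace Fermat.Agent.S35

open ModularCurve IsLocalRing Polynomial IntermediateField AlgebraicCurve Fermat.Agent.JT3
  Fermat.Agent.SS

local notation "Qb" => AlgebraicClosure ℚ
local notation "GQ" => (AlgebraicClosure ℚ ≃ₐ[ℚ] AlgebraicClosure ℚ)

/-! ### naturality of `hs_E` in the coefficient field -/

section Nat

variable {L L' : Type*} [Field L] [CharZero L] [Field L'] [CharZero L'] (f : L →+* L')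
  (h3 : (3 : L) ≠ 0) (h3' : (3 : L') ≠ 0) (N : ℕ) [NeZero N]

theorem s35bf_hs_gen_map {y : LaurentSeries L} (hy : y ∈ hsf_gens L h3 N) :
    coeffMap f y ∈ hsf_gens L' h3' N := by
  rcases hy with ⟨_, ⟨d, hd, hdN, rfl⟩, rfl⟩ | hy
  · haveI := hd
    refine Or.inl ⟨qExpand L' d (jqModC L'), ⟨d, hd, hdN, rfl⟩, ?_⟩
    rw [hs_coeffMap_phi, coeffMap_qExpand, coeffMap_jqModC]
  · refine Or.inr ?_
    rw [Set.mem_singleton_iff] at hy ⊢
    rw [hy, hs_coeffMap_mu L h3 f h3']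

/-- `coeffMap f` maps `hs_E L h3 N` into `hs_E L' h3' N`. -/
theorem s35bf_hs_E_map {z : LaurentSeries L} (hz : z ∈ hs_E L h3 N) :
    coeffMap f z ∈ hs_E L' h3' N := by
  rw [hsf_E_eq_adjoin] at hz ⊢
  exact s35bf_adjoin_map f _ _
    (fun y hy => IntermediateField.subset_adjoin _ _ (s35bf_hs_gen_map f h3 h3' N hy)) hz

/-- `hs_E L' h3' N = L' · coeffMap f (hs_E L h3 N)`. -/
theorem s35bf_hs_E_eq_comp : hs_E L' h3' N = s35bs_comp f (hs_E L h3 N) := by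
  apply le_antisymm
  · rw [hsf_E_eq_adjoin, IntermediateField.adjoin_le_iff]
    intro y hy
    rcases hy with ⟨_, ⟨d, hd, hdN, rfl⟩, rfl⟩ | hy
    · haveI := hd
      have e : hs_phi L' (qExpand L' d (jqModC L')) =
          coeffMap f (hs_phi L (qExpand L d (jqModC L))) := by
        rw [hs_coeffMap_phi, coeffMap_qExpand, coeffMap_jqModC]
      rw [e]
      refine s35bs_map_mem_comp f _ ?_
      rw [hsf_E_eq_adjoin]
      exact IntermediateField.subset_adjoin _ _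
        (Or.inl ⟨qExpand L d (jqModC L), ⟨d, hd, hdN, rfl⟩, rfl⟩)
    · rw [Set.mem_singleton_iff] at hy
      rw [hy, ← hs_coeffMap_mu L h3 f h3']
      exact s35bs_map_mem_comp f _ (hs_mu_mem_E L h3 N)
  · rw [s35bs_comp, IntermediateField.adjoin_le_iff]
    rintro _ ⟨y, hy, rfl⟩
    exact s35bf_hs_E_map f h3 h3' N hy

/-- the degree `[hs_E K0 h3 N : K0(μ)]` (generic in the field, to be used at `K0 = ℚ`). -/
def s35bf_hesN (K0 : Type*) [Field K0] (h30 : (3 : K0) ≠ 0) (N : ℕ) [NeZero N] : ℕ :=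
  Module.finrank K0⟮(hs_muE h30 N : ↥(hs_E K0 h30 N))⟯ ↥(hs_E K0 h30 N)

end Nat

/-! ### the Hesse family -/

section Fam

variable (N' q : ℕ) [NeZero N'] [NeZero q] [hq : Fact q.Prime]
  (A : ValuationSubring Qb) (φ : GQ) (hq3 : ¬ 3 ∣ q)

include hq3 in
/-- `3` is a unit of `O1` at every level. -/
theorem s35bf_three_isUnit (L1 : IntermediateField ℚ Qb) (hL : s35bf_IsLev A q φ L1) :
    IsUnit (3 : ↥(A.comap (algebraMap ↥L1 Qb))) := by
  haveI := hL.charP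
  have h : residue ↥(A.comap (algebraMap ↥L1 Qb)) (3 : ↥(A.comap (algebraMap ↥L1 Qb))) ≠ 0 := by
    rw [map_ofNat]
    exact s35bf_three_ne_zero hq3 _
  exact (residue_ne_zero_iff_isUnit _).1 h

/-- **`κ'(L1)`**: the residue function field of the Gauss valuation of `hs_E L1 _ N'`. -/
def s35bf_hesF (L1 : IntermediateField ℚ Qb) (hL : s35bf_IsLev A q φ L1) :
    IntermediateField (ResidueField ↥(A.comap (algebraMap ↥L1 Qb)))
      (LaurentSeries (ResidueField ↥(A.comap (algebraMap ↥L1 Qb)))) :=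
  haveI := hL.dvr
  s35kp_kappa (A.comap (algebraMap ↥L1 Qb)) hL.irr
    (hs_E ↥L1 (three_ne_zero : (3 : ↥L1) ≠ 0) N')
    (hsa_E_le_quotField (three_ne_zero : (3 : ↥L1) ≠ 0) (A.comap (algebraMap ↥L1 Qb)) N'
      (s35bf_three_isUnit q A φ hq3 L1 hL))

theorem s35bf_mu_eq (L1 : IntermediateField ℚ Qb) (hL : s35bf_IsLev A q φ L1) :
    ((hs_muE (three_ne_zero : (3 : ↥L1) ≠ 0) N' :
      ↥(hs_E ↥L1 (three_ne_zero : (3 : ↥L1) ≠ 0) N')) : LaurentSeries ↥L1) =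
      coeffMap (algebraMap ↥(A.comap (algebraMap ↥L1 Qb)) ↥L1)
        (hm_mu ↥(A.comap (algebraMap ↥L1 Qb)) (s35bf_three_isUnit q A φ hq3 L1 hL)) :=
  hsa_mu_eq_iota (three_ne_zero : (3 : ↥L1) ≠ 0) (A.comap (algebraMap ↥L1 Qb))
    (s35bf_three_isUnit q A φ hq3 L1 hL)

/-- **`μ̄ ∈ κ'(L1)`**. -/
def s35bf_hesx (L1 : IntermediateField ℚ Qb) (hL : s35bf_IsLev A q φ L1) :
    ↥(s35bf_hesF N' q A φ hq3 L1 hL) :=
  haveI := hL.dvr
  s35kp_xbar (A.comap (algebraMap ↥L1 Qb)) hL.irr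
    (hs_E ↥L1 (three_ne_zero : (3 : ↥L1) ≠ 0) N')
    (hsa_E_le_quotField (three_ne_zero : (3 : ↥L1) ≠ 0) (A.comap (algebraMap ↥L1 Qb)) N'
      (s35bf_three_isUnit q A φ hq3 L1 hL))
    (hm_mu ↥(A.comap (algebraMap ↥L1 Qb)) (s35bf_three_isUnit q A φ hq3 L1 hL))
    (hs_muE (three_ne_zero : (3 : ↥L1) ≠ 0) N') (s35bf_mu_eq N' q A φ hq3 L1 hL)

include hq3 in
theorem s35bf_hes_h3k (L1 : IntermediateField ℚ Qb) (hL : s35bf_IsLev A q φ L1) :
    IsUnit (3 : ResidueField ↥(A.comap (algebraMap ↥L1 Qb))) := by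
  haveI := hL.charP
  exact IsUnit.mk0 _ (s35bf_three_ne_zero hq3 _)

theorem s35bf_hesx_coe (L1 : IntermediateField ℚ Qb) (hL : s35bf_IsLev A q φ L1) :
    ((s35bf_hesx N' q A φ hq3 L1 hL : ↥(s35bf_hesF N' q A φ hq3 L1 hL)) :
      LaurentSeries (ResidueField ↥(A.comap (algebraMap ↥L1 Qb)))) =
      hm_mu (ResidueField ↥(A.comap (algebraMap ↥L1 Qb))) (s35bf_hes_h3k q A φ hq3 L1 hL) := by
  haveI := hL.dvr
  have h := s35kp_xbar_coe (A.comap (algebraMap ↥L1 Qb)) hL.irr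
    (hs_E ↥L1 (three_ne_zero : (3 : ↥L1) ≠ 0) N')
    (hsa_E_le_quotField (three_ne_zero : (3 : ↥L1) ≠ 0) (A.comap (algebraMap ↥L1 Qb)) N'
      (s35bf_three_isUnit q A φ hq3 L1 hL))
    (hm_mu ↥(A.comap (algebraMap ↥L1 Qb)) (s35bf_three_isUnit q A φ hq3 L1 hL))
    (hs_muE (three_ne_zero : (3 : ↥L1) ≠ 0) N') (s35bf_mu_eq N' q A φ hq3 L1 hL)
  rw [hm_coeffMap_mu _ _ (s35bf_hes_h3k q A φ hq3 L1 hL)] at h
  exact h

theorem s35bf_hes_htr (L1 : IntermediateField ℚ Qb) (hL : s35bf_IsLev A q φ L1) :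
    ∀ p : (ResidueField ↥(A.comap (algebraMap ↥L1 Qb)))[X],
      aeval (coeffMap (residue ↥(A.comap (algebraMap ↥L1 Qb)))
        (hm_mu ↥(A.comap (algebraMap ↥L1 Qb)) (s35bf_three_isUnit q A φ hq3 L1 hL))) p = 0 →
        p = 0 := by
  haveI := hL.charP
  intro p hp
  by_contra hne
  rw [hm_coeffMap_mu _ _ (s35bf_hes_h3k q A φ hq3 L1 hL)] at hp
  exact hsf_mu_transcendental' (ResidueField ↥(A.comap (algebraMap ↥L1 Qb)))
    (s35bf_three_ne_zero hq3 _) ⟨p, hne, hp⟩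

theorem s35bf_hes_fin (L1 : IntermediateField ℚ Qb) (hL : s35bf_IsLev A q φ L1) :
    FiniteDimensional
      (ResidueField ↥(A.comap (algebraMap ↥L1 Qb)))⟮s35bf_hesx N' q A φ hq3 L1 hL⟯
      ↥(s35bf_hesF N' q A φ hq3 L1 hL) := by
  haveI := hL.dvr
  haveI := hsf_finite ↥L1 (three_ne_zero : (3 : ↥L1) ≠ 0) N'
  exact s35kp_finiteDimensional (A.comap (algebraMap ↥L1 Qb)) hL.irr
    (hs_E ↥L1 (three_ne_zero : (3 : ↥L1) ≠ 0) N')
    (hsa_E_le_quotField (three_ne_zero : (3 : ↥L1) ≠ 0) (A.comap (algebraMap ↥L1 Qb)) N'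
      (s35bf_three_isUnit q A φ hq3 L1 hL))
    (hm_mu ↥(A.comap (algebraMap ↥L1 Qb)) (s35bf_three_isUnit q A φ hq3 L1 hL))
    (hs_muE (three_ne_zero : (3 : ↥L1) ≠ 0) N') (s35bf_mu_eq N' q A φ hq3 L1 hL)
    (s35bf_hes_htr q A φ hq3 L1 hL)

/-- **the uniform degree bound.** -/
theorem s35bf_hes_deg (L1 : IntermediateField ℚ Qb) (hL : s35bf_IsLev A q φ L1) :
    Module.finrank
      (ResidueField ↥(A.comap (algebraMap ↥L1 Qb)))⟮s35bf_hesx N' q A φ hq3 L1 hL⟯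
      ↥(s35bf_hesF N' q A φ hq3 L1 hL) ≤ s35bf_hesN ℚ three_ne_zero N' := by
  haveI := hL.dvr
  haveI := hsf_finite ↥L1 (three_ne_zero : (3 : ↥L1) ≠ 0) N'
  haveI := hsf_finite ℚ (three_ne_zero : (3 : ℚ) ≠ 0) N'
  refine le_trans (s35kp_finrank_le (A.comap (algebraMap ↥L1 Qb)) hL.irr
    (hs_E ↥L1 (three_ne_zero : (3 : ↥L1) ≠ 0) N')
    (hsa_E_le_quotField (three_ne_zero : (3 : ↥L1) ≠ 0) (A.comap (algebraMap ↥L1 Qb)) N'
      (s35bf_three_isUnit q A φ hq3 L1 hL))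
    (hm_mu ↥(A.comap (algebraMap ↥L1 Qb)) (s35bf_three_isUnit q A φ hq3 L1 hL))
    (hs_muE (three_ne_zero : (3 : ↥L1) ≠ 0) N') (s35bf_mu_eq N' q A φ hq3 L1 hL)
    (s35bf_hes_htr q A φ hq3 L1 hL)) ?_
  exact (s35bf_finrank_le_of_comp (K0 := ℚ) (L := ↥L1)
    (hs_E ℚ (three_ne_zero : (3 : ℚ) ≠ 0) N') (hs_muE (three_ne_zero : (3 : ℚ) ≠ 0) N')
    (hs_E ↥L1 (three_ne_zero : (3 : ↥L1) ≠ 0) N')
    (s35bf_hs_E_eq_comp (algebraMap ℚ ↥L1) three_ne_zero three_ne_zero N')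
    (hs_muE (three_ne_zero : (3 : ↥L1) ≠ 0) N')
    (hs_coeffMap_mu ℚ three_ne_zero (algebraMap ℚ ↥L1) three_ne_zero).symm).2

variable (hφ : A.IsFrobeniusAt φ q)

include hφ in
theorem s35bf_hes_frob (L1 : IntermediateField ℚ Qb) (hL : s35bf_IsLev A q φ L1) :
    haveI := hL.charP
    ∀ y ∈ s35bf_hesF N' q A φ hq3 L1 hL,
      coeffMap (frobenius (ResidueField ↥(A.comap (algebraMap ↥L1 Qb))) q) y ∈
        s35bf_hesF N' q A φ hq3 L1 hL := by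
  haveI := hL.dvr
  haveI := hL.charP
  obtain ⟨φ1, hφ1⟩ := hL.frob
  intro y hy
  exact s35kp_frob_mem (A.comap (algebraMap ↥L1 Qb)) hL.irr
    (hs_E ↥L1 (three_ne_zero : (3 : ↥L1) ≠ 0) N')
    (hsa_E_le_quotField (three_ne_zero : (3 : ↥L1) ≠ 0) (A.comap (algebraMap ↥L1 Qb)) N'
      (s35bf_three_isUnit q A φ hq3 L1 hL))
    (s35ti_frobAt_of_frobenius A φ hφ L1 φ1 hφ1)
    (fun z hz => ssm_sgh_mem three_ne_zero N' _ hz) hy

include hφ in
theorem s35bf_hes_frob_symm (L1 : IntermediateField ℚ Qb) (hL : s35bf_IsLev A q φ L1) :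
    haveI := hL.charP
    haveI := s35bf_perfectRing A L1 q
    ∀ y ∈ s35bf_hesF N' q A φ hq3 L1 hL,
      coeffMap ((frobeniusEquiv (ResidueField ↥(A.comap (algebraMap ↥L1 Qb))) q).symm :
        ResidueField ↥(A.comap (algebraMap ↥L1 Qb)) →+*
          ResidueField ↥(A.comap (algebraMap ↥L1 Qb))) y ∈
        s35bf_hesF N' q A φ hq3 L1 hL := by
  haveI := hL.dvr
  haveI := hL.charP
  haveI := s35bf_perfectRing A L1 q
  obtain ⟨φ1, hφ1⟩ := hL.frob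
  intro y hy
  exact s35kp_frob_symm_mem (A.comap (algebraMap ↥L1 Qb)) hL.irr
    (hs_E ↥L1 (three_ne_zero : (3 : ↥L1) ≠ 0) N')
    (hsa_E_le_quotField (three_ne_zero : (3 : ↥L1) ≠ 0) (A.comap (algebraMap ↥L1 Qb)) N'
      (s35bf_three_isUnit q A φ hq3 L1 hL))
    (s35ti_frobAt_of_frobenius A φ hφ L1 φ1 hφ1)
    (fun z hz => ssm_sgh_mem three_ne_zero N' _ hz)
    (fun z hz => ssm_sgh_mem three_ne_zero N' _ hz) hy

theorem s35bf_hes_mono {L1 L1' : IntermediateField ℚ Qb} (hL : s35bf_IsLev A q φ L1)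
    (hL' : s35bf_IsLev A q φ L1') (h : L1 ≤ L1') :
    s35bs_comp (s35bf_j A L1) (s35bf_hesF N' q A φ hq3 L1 hL) ≤
      s35bs_comp (s35bf_j A L1') (s35bf_hesF N' q A φ hq3 L1' hL') := by
  haveI := hL.dvr
  haveI := hL'.dvr
  exact s35bf_comp_mono A h hL.irr hL'.irr (hs_E ↥L1 (three_ne_zero : (3 : ↥L1) ≠ 0) N')
    (hsa_E_le_quotField (three_ne_zero : (3 : ↥L1) ≠ 0) (A.comap (algebraMap ↥L1 Qb)) N'
      (s35bf_three_isUnit q A φ hq3 L1 hL))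
    (hs_E ↥L1' (three_ne_zero : (3 : ↥L1') ≠ 0) N')
    (hsa_E_le_quotField (three_ne_zero : (3 : ↥L1') ≠ 0) (A.comap (algebraMap ↥L1' Qb)) N'
      (s35bf_three_isUnit q A φ hq3 L1' hL'))
    (fun z hz => s35bf_hs_E_map (s35bf_incl h) three_ne_zero three_ne_zero N' hz)

end Fam

/-! ### the output of the cell -/

section Main

variable (N' q : ℕ) [NeZero N'] [NeZero q] [hq : Fact q.Prime] (hq3 : ¬ 3 ∣ q)
  (A : ValuationSubring Qb) (hA : A.LiesOverPrime q) (φ : GQ) (hφ : A.IsFrobeniusAt φ q)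

include hq3 hA hφ in
/-- **[ABEL-FAM], Hesse**: a uniform exponent `E ≥ 1` and an inertia-fixed finite set `T` such that
the [ABEL-SS] property holds for `κ'(L1)` at every level `L1 ⊇ T`. -/
theorem s35bf_hes :
    ∃ E : ℕ, 1 ≤ E ∧ ∃ T : Finset Qb, (∀ t ∈ T, ∀ s ∈ A.inertiaSubgroupIn ℚ, s t = t) ∧
      ∀ L1 : IntermediateField ℚ Qb, FiniteDimensional ℚ L1 → (↑T : Set Qb) ⊆ L1 →
        (∀ x ∈ L1, ∀ s ∈ A.inertiaSubgroupIn ℚ, s x = x) →
        ∀ [IsDiscreteValuationRing ↥(A.comap (algebraMap ↥L1 Qb))]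
          [CharP (ResidueField ↥(A.comap (algebraMap ↥L1 Qb))) q]
          (h3O : IsUnit (3 : ↥(A.comap (algebraMap ↥L1 Qb))))
          (hπ : Irreducible ((q : ℕ) : ↥(A.comap (algebraMap ↥L1 Qb)))),
          ∀ φ1 : ↥L1 ≃+* ↥L1, (∀ x : ↥L1, ((φ1 x : ↥L1) : Qb) = φ (x : Qb)) →
            ∀ m : ℕ, ¬ q ∣ m →
              s35bf_AbelProp q (s35kp_kappa (A.comap (algebraMap ↥L1 Qb)) hπ
                (hs_E ↥L1 (three_ne_zero : (3 : ↥L1) ≠ 0) N')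
                (hsa_E_le_quotField (three_ne_zero : (3 : ↥L1) ≠ 0)
                  (A.comap (algebraMap ↥L1 Qb)) N' h3O)) E m := by
  classical
  haveI : CharP (ResidueField ↥A) q := jcr_charP A hA
  haveI : IsAlgClosed (ResidueField ↥A) := jcr_isAlgClosed A
  by_cases hne : Nonempty {L1 : IntermediateField ℚ Qb // s35bf_IsLev A q φ L1}
  swap
  · refine ⟨1, le_rfl, ∅, fun t ht => absurd ht (Finset.notMem_empty t), ?_⟩
    intro L1 hfd hT hfix hdvr hchar h3O hπ φ1 hφ1 m hm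
    exact absurd ⟨⟨L1, ⟨hfd, hfix, hdvr, hchar, hπ, ⟨φ1, hφ1⟩⟩⟩⟩ hne
  obtain ⟨i00⟩ := hne
  haveI hcharI : ∀ i : {L1 : IntermediateField ℚ Qb // s35bf_IsLev A q φ L1},
      CharP (ResidueField ↥(A.comap (algebraMap ↥i.1 Qb))) q := fun i => i.2.charP
  haveI hperfI : ∀ i : {L1 : IntermediateField ℚ Qb // s35bf_IsLev A q φ L1},
      PerfectRing (ResidueField ↥(A.comap (algebraMap ↥i.1 Qb))) q :=
    fun i => s35bf_perfectRing A i.1 q
  haveI hfinI : ∀ i : {L1 : IntermediateField ℚ Qb // s35bf_IsLev A q φ L1},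
      FiniteDimensional
        (ResidueField ↥(A.comap (algebraMap ↥i.1 Qb)))⟮s35bf_hesx N' q A φ hq3 i.1 i.2⟯
        ↥(s35bf_hesF N' q A φ hq3 i.1 i.2) := fun i => s35bf_hes_fin N' q A φ hq3 i.1 i.2
  have h3b : IsUnit (3 : ResidueField ↥A) := IsUnit.mk0 _ (s35bf_three_ne_zero hq3 _)
  obtain ⟨i0, -, E, hE1, hE⟩ := s35bf_tower (q := q) (kb := ResidueField ↥A)
    (k := fun i : {L1 : IntermediateField ℚ Qb // s35bf_IsLev A q φ L1} =>
      ResidueField ↥(A.comap (algebraMap ↥i.1 Qb)))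
    (j := fun i => s35bf_j A i.1)
    (F := fun i => s35bf_hesF N' q A φ hq3 i.1 i.2)
    (x := fun i => s35bf_hesx N' q A φ hq3 i.1 i.2)
    (xbar := hm_mu (ResidueField ↥A) h3b)
    (fun i => by
      show coeffMap (s35bf_j A i.1) ((s35bf_hesx N' q A φ hq3 i.1 i.2 :
        ↥(s35bf_hesF N' q A φ hq3 i.1 i.2)) : LaurentSeries _) = _
      rw [s35bf_hesx_coe, hm_coeffMap_mu _ _ h3b])
    (fun i i' h => s35bf_hes_mono N' q A φ hq3 i.2 i'.2 h)
    (s35bf_hesN ℚ three_ne_zero N')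
    (fun i => s35bf_hes_deg N' q A φ hq3 i.1 i.2)
    (fun i => s35bf_hes_frob N' q A φ hq3 hφ i.1 i.2)
    (fun i => s35bf_hes_frob_symm N' q A φ hq3 hφ i.1 i.2)
    (hm_coeffMap_mu _ _ h3b)
    (by rw [hm_mu_order _ h3b]; exact s35bf_not_dvd_neg_one)
    (fun i c => s35bf_halg A i.1 q c)
    i00
  haveI := i0.2.fin
  obtain ⟨T, hTmem, hTgen⟩ := s35bf_exists_finset i0.1
  refine ⟨E, hE1, T, fun t ht s hs => i0.2.fixed t (hTmem t ht) s hs, ?_⟩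
  intro L1 hfd hT hfix hdvr hchar h3O hπ φ1 hφ1 m hm
  have hle : i0.1 ≤ L1 := hTgen L1 hT
  exact hE ⟨L1, ⟨hfd, hfix, hdvr, hchar, hπ, ⟨φ1, hφ1⟩⟩⟩ hle m hm

end Main

end Fermat.Agent.S35
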