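/-
Project S35, cell [ABEL-FAM] (helper13): THE ADAPTER TO helper4's [CORE-ASM] AND THE TWO CLOSED TERMS
(A-L), (A-H) OF `S35/Final.lean`.  Prefix `s35bf_`.

* `s35bf_abelK_of_prop` : `s35bf_AbelProp q κ' E m → s35as_AbelK O hπ q E' E hle hE m E0` (the two shapes of
                          [ABEL] over the residue field of a level differ only in the order of the
                          binders and in the spelling of the factor form);
* `s35bf_famLeg`, `s35bf_famHes` : `s35as_FamLeg N' q`, `s35as_FamHes N' q`;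
* `s35bf_abelNF1_leg`   : **(A-L)** `s35_AbelNF1 N' q hq2 hqN'`;
* `s35bf_abelNF1_hes`   : **(A-H)** `s35h_AbelNF1 N' q hq3 hqN'`.
-/
import Mathlib
import Fermat.Agent.S35.AbelFam.Leg
import Fermat.Agent.S35.AbelFam.Hes
import Fermat.Agent.S35.AbelAsm.NF
import Fermat.Agent.S35.AbelAsm.NFHes

set_option autoImplicit false
set_option linter.unusedSectionVars false
set_option linter.unusedVariables false
set_option linter.style.haveILetI false

noncomputable section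

namespace Fermat.Agent.S35

open ModularCurve IsLocalRing Polynomial IntermediateField AlgebraicCurve Fermat.Agent.JT3
  Fermat.Agent.SS

local notation "Qb" => AlgebraicClosure ℚ
local notation "GQ" => (AlgebraicClosure ℚ ≃ₐ[ℚ] AlgebraicClosure ℚ)

section Adapter

variable {L : Type*} [Field L] [CharZero L] (O : ValuationSubring L)
  [IsDiscreteValuationRing O] {π : O} (hπ : Irreducible π)
variable (q : ℕ) [NeZero q] [hq : Fact q.Prime] [CharP (ResidueField O) q]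
variable (E' E : IntermediateField L (LaurentSeries L)) (hle : E' ≤ E)
  (hE : E ≤ gq_quotField O L)

set_option synthInstance.maxHeartbeats 400000 in
set_option maxHeartbeats 1600000 in
/-- the two shapes of [ABEL] over the residue field of a level. -/
theorem s35bf_abelK_of_prop (m E0 : ℕ)
    (h : s35bf_AbelProp q (s35kp_kappa O hπ E' (hle.trans hE)) E0 m) :
    s35as_AbelK O hπ q E' E hle hE m E0 := by
  intro u₁ u₂ a a' hu₁ hu₂ ha ha' c c' hu₁0 hu₂0 hfac₁ hfac₂ hR1 hR2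
  refine h u₁ u₂ a a' hu₁ hu₂ c c' ha ha' hu₁0 hu₂0 ?_ ?_ hR1 hR2
  · intro 𝒪 hc halg
    obtain ⟨ω, e, he, hω, hω'⟩ := hfac₁ 𝒪 hc halg
    exact ⟨ω, e, Subtype.ext he, hω, hω'⟩
  · intro 𝒪 hc halg
    obtain ⟨ω, e, he, hω, hω'⟩ := hfac₂ 𝒪 hc halg
    exact ⟨ω, e, Subtype.ext he, hω, hω'⟩

end Adapter

section Fam

variable (N' q : ℕ) [NeZero N'] [NeZero q] [hq : Fact q.Prime]

set_option synthInstance.maxHeartbeats 400000 in
set_option maxHeartbeats 1600000 in
/-- **[ABEL-FAM], Legendre tower**, in helper4's vocabulary. -/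
theorem s35bf_famLeg (hq2 : ¬ 2 ∣ q) : s35as_FamLeg N' q := by
  intro A hA φ hφ
  obtain ⟨E, hE1, T, hTfix, hT⟩ := s35bf_leg N' q hq2 A hA φ hφ
  refine ⟨E, hE1, T, hTfix, ?_⟩
  intro L1 hfd hsub hfix _ _ hπ φ1 hφ1 m hm
  exact s35bf_abelK_of_prop (A.comap (algebraMap ↥L1 Qb)) hπ q (lg_E ↥L1 N')
    (lg_E ↥L1 (N' * q)) (ssm_al_E_le ↥L1 N' q)
    (ssm_ga_E_le_quotField (A.comap (algebraMap ↥L1 Qb)) (N' * q)) m E
    (hT L1 hfd hsub hfix hπ φ1 hφ1 m hm)

set_option synthInstance.maxHeartbeats 400000 in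
set_option maxHeartbeats 1600000 in
/-- **[ABEL-FAM], Hesse tower**, in helper4's vocabulary. -/
theorem s35bf_famHes (hq3 : ¬ 3 ∣ q) : s35as_FamHes N' q := by
  intro A hA φ hφ
  obtain ⟨E, hE1, T, hTfix, hT⟩ := s35bf_hes N' q hq3 A hA φ hφ
  refine ⟨E, hE1, T, hTfix, ?_⟩
  intro L1 hfd hsub hfix _ _ h3O hπ φ1 hφ1 m hm
  exact s35bf_abelK_of_prop (A.comap (algebraMap ↥L1 Qb)) hπ q
    (hs_E ↥L1 (three_ne_zero : (3 : ↥L1) ≠ 0) N')
    (hs_E ↥L1 (three_ne_zero : (3 : ↥L1) ≠ 0) (N' * q))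
    (ssm_alh_E_le ↥L1 (three_ne_zero : (3 : ↥L1) ≠ 0)
      (ssm_fh_hF9 (three_ne_zero : (3 : ↥L1) ≠ 0)) N' q)
    (hsa_E_le_quotField (three_ne_zero : (3 : ↥L1) ≠ 0)
      (A.comap (algebraMap ↥L1 Qb)) (N' * q) h3O) m E
    (hT L1 hfd hsub hfix h3O hπ φ1 hφ1 m hm)

/-- **(A-L)**: the primed [ABEL] over the unramified number fields, Legendre cover. -/
theorem s35bf_abelNF1_leg (hq2 : ¬ 2 ∣ q) (hqN' : ¬ q ∣ N') : s35_AbelNF1 N' q hq2 hqN' :=
  s35as_abelNF1_leg N' q hq2 hqN' (s35bf_famLeg N' q hq2)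

/-- **(A-H)**: the primed [ABEL] over the unramified number fields, Hesse cover. -/
theorem s35bf_abelNF1_hes (hq3 : ¬ 3 ∣ q) (hqN' : ¬ q ∣ N') : s35h_AbelNF1 N' q hq3 hqN' :=
  s35as_abelNF1_hes N' q hq3 hqN' (s35bf_famHes N' q hq3)

end Fam

end Fermat.Agent.S35
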